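import Mathlib

/-!
# S14 / Thaine : Hilbert 90 for cyclic extensions, universe polymorphic

Mathlib's `groupCohomology.exists_div_of_norm_eq_one` is stated for `K L : Type`.  We reprove the
cyclic version from Noether's form (which is universe polymorphic).
-/

set_option autoImplicit false

namespace Fermat.Agent.S14.ThaineAlt

open groupCohomology

section H90

variable {K L : Type*} [Field K] [Field L] [Algebra K L] [FiniteDimensional K L] [IsGalois K L]

/-- partial norms `x * g x * ... * g^(k-1) x`. -/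
noncomputable def partialNorm (g : L ≃ₐ[K] L) (x : Lˣ) (k : ℕ) : Lˣ :=
  ∏ j ∈ Finset.range k, (g ^ j) • x

omit [FiniteDimensional K L] [IsGalois K L] in
theorem partialNorm_add (g : L ≃ₐ[K] L) (x : Lˣ) (k m : ℕ) :
    partialNorm g x (k + m) = partialNorm g x k * (g ^ k) • partialNorm g x m := by
  unfold partialNorm
  rw [Finset.prod_range_add, Finset.smul_prod']
  congr 1
  refine Finset.prod_congr rfl fun j _ => ?_
  rw [smul_smul, pow_add]

theorem partialNorm_orderOf (g : L ≃ₐ[K] L) (hg : ∀ σ, σ ∈ Subgroup.zpowers g) (x : Lˣ)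
    (hx : Algebra.norm K (x : L) = 1) : partialNorm g x (orderOf g) = 1 := by
  classical
  have h1 : algebraMap K L (Algebra.norm K (x : L)) = ∏ σ : L ≃ₐ[K] L, σ (x : L) :=
    Algebra.norm_eq_prod_automorphisms K (x : L)
  rw [hx, map_one] at h1
  ext
  unfold partialNorm
  rw [Units.coe_prod, Units.val_one, h1]
  have hinj : Set.InjOn (fun j : ℕ => g ^ j) (Finset.range (orderOf g)) := by
    intro a ha b hb hab
    exact pow_injOn_Iio_orderOf (by simpa using ha) (by simpa using hb) hab
  have himg : (Finset.range (orderOf g)).image (fun j : ℕ => g ^ j) = Finset.univ := by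
    ext σ
    simp only [Finset.mem_image, Finset.mem_range, Finset.mem_univ, iff_true]
    have hσ : σ ∈ Submonoid.powers g := (mem_powers_iff_mem_zpowers).2 (hg σ)
    have := (mem_powers_iff_mem_range_orderOf (x := g) (y := σ)).1 hσ
    simpa using this
  rw [← himg, Finset.prod_image hinj]
  rfl

theorem partialNorm_mod (g : L ≃ₐ[K] L) (hg : ∀ σ, σ ∈ Subgroup.zpowers g) (x : Lˣ)
    (hx : Algebra.norm K (x : L) = 1) (k : ℕ) :
    partialNorm g x (k % orderOf g) = partialNorm g x k := by
  have h0 := partialNorm_orderOf g hg x hx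
  have hmul : ∀ q : ℕ, partialNorm g x (orderOf g * q) = 1 := by
    intro q
    induction q with
    | zero => simp [partialNorm]
    | succ q ih =>
      rw [Nat.mul_succ, partialNorm_add, ih, h0, smul_one, one_mul]
  conv_rhs => rw [← Nat.div_add_mod k (orderOf g), partialNorm_add, hmul, one_mul,
    pow_mul, pow_orderOf_eq_one, one_pow, one_smul]

/-- **Hilbert 90** (cyclic case), universe polymorphic: `g y / y = x`. -/
theorem exists_apply_eq_mul_of_norm_eq_one (g : L ≃ₐ[K] L) (hg : ∀ σ, σ ∈ Subgroup.zpowers g)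
    (x : L) (hx : Algebra.norm K x = 1) : ∃ y : L, y ≠ 0 ∧ g y = x * y := by
  classical
  have hx0 : x ≠ 0 := by
    rintro rfl
    simp [Algebra.norm_zero] at hx
  let xu : Lˣ := Units.mk0 x hx0
  have hxu : Algebra.norm K (xu : L) = 1 := hx
  have hex : ∀ σ : L ≃ₐ[K] L, ∃ k : ℕ, g ^ k = σ := fun σ =>
    (mem_powers_iff_mem_zpowers).2 (hg σ)
  choose k hk using hex
  let f : (L ≃ₐ[K] L) → Lˣ := fun σ => partialNorm g xu (k σ)
  have hf' : ∀ n : ℕ, f (g ^ n) = partialNorm g xu n := by
    intro n
    have h1 : g ^ (k (g ^ n)) = g ^ n := hk _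
    have h2 : k (g ^ n) % orderOf g = n % orderOf g := pow_eq_pow_iff_modEq.1 h1
    change partialNorm g xu (k (g ^ n)) = _
    rw [← partialNorm_mod g hg xu hxu, h2, partialNorm_mod g hg xu hxu]
  have hf : IsMulCocycle₁ f := by
    intro σ ρ
    rw [← hk σ, ← hk ρ, ← pow_add, hf', hf', hf', partialNorm_add, mul_comm]
  obtain ⟨β, hβ⟩ := isMulCoboundary₁_of_isMulCocycle₁_of_aut_to_units f hf
  refine ⟨β, β.ne_zero, ?_⟩
  have h1 := hβ g
  have h2 : f g = xu := by
    have := hf' 1
    rw [pow_one] at this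
    rw [this]
    unfold partialNorm
    rw [Finset.prod_range_one, pow_zero, one_smul]
  rw [h2, div_eq_iff_eq_mul] at h1
  have := congrArg Units.val h1
  simpa [xu] using this

end H90

end Fermat.Agent.S14.ThaineAlt
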