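import Fermat.Agent.S14.ThaineAlt.Ramif

/-!
# S14 / Thaine : the primes of `L = K(ζ_ℓ)` above `ℓ`
-/

set_option autoImplicit false

namespace Fermat.Agent.S14.ThaineAlt

open Polynomial NumberField Ideal UniqueFactorizationMonoid

theorem succ_coprime_of_lt_prime {n : ℕ} (hl : (n + 1).Prime) (k : ℕ) (hk : k < n) :
    (k + 1).Coprime (n + 1) :=
  (Nat.coprime_of_lt_prime (Nat.succ_ne_zero k) (by omega) hl).symm

theorem span_natCast_eq_pow {R : Type*} [CommRing R] [IsDomain R] {ℓ : ℕ} (hl : ℓ.Prime) {z : R}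
    (hz : IsPrimitiveRoot z ℓ) : Ideal.span {(ℓ : R)} = Ideal.span {z - 1} ^ (ℓ - 1) := by
  obtain ⟨n, rfl⟩ : ∃ n, ℓ = n + 1 := ⟨ℓ - 1, (Nat.sub_add_cancel hl.one_lt.le).symm⟩
  have h := hz.prod_pow_sub_one_eq_order
  rw [Nat.add_sub_cancel, Nat.cast_add, Nat.cast_one, ← h,
    Ideal.span_singleton_mul_left_unit (IsUnit.pow _ isUnit_one.neg), ← Ideal.prod_span_singleton]
  rw [← Finset.card_range n, ← Finset.prod_const, Finset.card_range]
  refine Finset.prod_congr rfl fun k hk => ?_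
  rw [Ideal.span_singleton_eq_span_singleton]
  refine (hz.associated_sub_one_pow_sub_one_of_coprime ?_).symm
  rw [Finset.mem_range] at hk
  exact succ_coprime_of_lt_prime hl k hk

/-- `z - 1 ∣ z ^ s - 1`, with explicit quotient congruent to `s`. -/
theorem pow_sub_one_sub_mul_mem {R : Type*} [CommRing R] (z : R) (s : ℕ) :
    (z ^ s - 1) - (s : R) * (z - 1) ∈ Ideal.span {z - 1} ^ 2 := by
  have h1 : z ^ s - 1 = (∑ i ∈ Finset.range s, z ^ i) * (z - 1) := (geom_sum_mul z s).symm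
  have h2 : (∑ i ∈ Finset.range s, z ^ i) - (s : R) ∈ Ideal.span {z - 1} := by
    have : (∑ i ∈ Finset.range s, z ^ i) - (s : R) = ∑ i ∈ Finset.range s, (z ^ i - 1) := by
      rw [Finset.sum_sub_distrib]; simp
    rw [this]
    refine Ideal.sum_mem _ fun i _ => ?_
    rw [Ideal.mem_span_singleton]
    exact sub_one_dvd_pow_sub_one z i
  rw [h1, ← sub_mul, pow_two]
  exact Ideal.mul_mem_mul h2 (Ideal.mem_span_singleton_self _)

variable (p ℓ : ℕ) [hp : Fact p.Prime] [hl : Fact ℓ.Prime] (K L : Type*) [Field K] [NumberField K]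
  [IsCyclotomicExtension {p} ℚ K] [Field L] [NumberField L] [Algebra K L]
  [IsCyclotomicExtension {ℓ} K L]

omit [NumberField L] in
theorem sub_one_mem (z : 𝓞 L) (hz : IsPrimitiveRoot z ℓ) (Q : Ideal (𝓞 L)) [hQ : Q.IsPrime]
    (hℓ : (ℓ : 𝓞 L) ∈ Q) : z - 1 ∈ Q := by
  have h := span_natCast_eq_pow hl.out hz
  have h1 : (z - 1) ^ (ℓ - 1) ∈ Q := by
    have : (z - 1) ^ (ℓ - 1) ∈ Ideal.span {(ℓ : 𝓞 L)} := by
      rw [h]
      exact Ideal.pow_mem_pow (Ideal.mem_span_singleton_self _) _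
    exact ((Ideal.span_singleton_le_iff_mem Q).2 hℓ) this
  exact hQ.mem_of_pow_mem _ h1

include K in
theorem sub_one_notMem_sq (hne : p ≠ ℓ) (z : 𝓞 L) (hz : IsPrimitiveRoot z ℓ) (Q : Ideal (𝓞 L))
    [hQ : Q.IsPrime] (hℓ : (ℓ : 𝓞 L) ∈ Q) : z - 1 ∉ Q ^ 2 := by
  intro hmem
  have hcyc := isCyclotomicExtension_mul p ℓ K L hne
  have hover : Q.LiesOver (span {(ℓ : ℤ)}) := liesOver_span_of_natCast_mem ℓ Q hℓ
  have h1 : Q.ramificationIdx ℤ = ℓ ^ 0 * (ℓ - 1) :=
    IsCyclotomicExtension.Rat.ramificationIdx_eq (p * ℓ) L Q (p := ℓ) (k := 0) (m := p)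
      (by ring) (fun h => hne ((Nat.prime_dvd_prime_iff_eq hl.out hp.out).1 h).symm)
  rw [pow_zero, one_mul] at h1
  have hmap : (span {(ℓ : ℤ)}).map (algebraMap ℤ (𝓞 L)) = span {(ℓ : 𝓞 L)} := by
    rw [Ideal.map_span, Set.image_singleton]; simp
  have hne0 : (span {(ℓ : ℤ)}).map (algebraMap ℤ (𝓞 L)) ≠ ⊥ := by
    rw [hmap, Ne, Ideal.span_singleton_eq_bot]
    exact_mod_cast hl.out.ne_zero
  have h2 := Ideal.IsDedekindDomain.ramificationIdx_eq_multiplicity (span {(ℓ : ℤ)}) Q hne0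
  rw [h1, hmap, span_natCast_eq_pow hl.out hz] at h2
  have hdvd : Q ^ (2 * (ℓ - 1)) ∣ span {z - 1} ^ (ℓ - 1) := by
    rw [pow_mul]
    exact pow_dvd_pow_of_dvd (Ideal.dvd_span_singleton.2 hmem) _
  have hfin : FiniteMultiplicity Q (span {z - 1} ^ (ℓ - 1)) := by
    have hQ0 : Q ≠ ⊥ := by
      rintro rfl
      rw [Ideal.mem_bot] at hℓ
      exact hl.out.ne_zero (by exact_mod_cast hℓ)
    refine FiniteMultiplicity.of_prime_left (Ideal.prime_of_isPrime hQ0 hQ) ?_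
    rw [← span_natCast_eq_pow hl.out hz, ← hmap]
    exact hne0
  have h3 := hfin.le_multiplicity_of_pow_dvd hdvd
  have := hl.out.two_le
  omega

include K in
/-- a ring endomorphism of `𝓞 L` moving the generator `ζ_{pℓ}` by an element of `Q` acts trivially
modulo `Q`. -/
theorem map_sub_self_mem (hne : p ≠ ℓ) (μ : L) (hμ : IsPrimitiveRoot μ (p * ℓ))
    (τ : 𝓞 L →+* 𝓞 L) (Q : Ideal (𝓞 L)) (h : τ hμ.toInteger - hμ.toInteger ∈ Q) (x : 𝓞 L) :
    τ x - x ∈ Q := by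
  have hcyc := isCyclotomicExtension_mul p ℓ K L hne
  have htop := IsCyclotomicExtension.Rat.adjoin_singleton_eq_top hμ
  have hx : x ∈ Algebra.adjoin ℤ {hμ.toInteger} := by rw [htop]; trivial
  induction hx using Algebra.adjoin_induction with
  | mem y hy =>
    rw [Set.mem_singleton_iff] at hy
    rw [hy]; exact h
  | algebraMap n => simp
  | add a b _ _ ha hb =>
    have e : τ (a + b) - (a + b) = (τ a - a) + (τ b - b) := by rw [map_add]; ring
    rw [e]; exact Ideal.add_mem _ ha hb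
  | mul a b _ _ ha hb =>
    have e : τ (a * b) - a * b = τ a * (τ b - b) + (τ a - a) * b := by rw [map_mul]; ring
    rw [e]
    exact Ideal.add_mem _ (Ideal.mul_mem_left _ _ hb) (Ideal.mul_mem_right _ _ ha)

end Fermat.Agent.S14.ThaineAlt
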