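import Mathlib

/-!
# S14 / Thaine : abstract Dedekind-domain lemmas

* `sub_pow_mul_mem` : an automorphism `τ` in the inertia group of `P` with `τ π ≡ s π mod P²`
  acts on `P^r / P^(r+1)` as multiplication by `s^r`.
* `exists_eq_prod_mul_pow` : an ideal all of whose multiplicities outside a finite set `S` of primes
  are divisible by `p` is `∏_{q ∈ S} q^(v_q) * c^p`.
-/

set_option autoImplicit false

namespace Fermat.Agent.S14.ThaineAlt

open Ideal UniqueFactorizationMonoid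

section Inertia

variable {B : Type*} [CommRing B] [IsDedekindDomain B] (P : Ideal B) [hPp : P.IsPrime]

omit [IsDedekindDomain B] hPp in
theorem map_mem_pow (τ : B →+* B) (hτP : ∀ x ∈ P, τ x ∈ P) (n : ℕ) (x : B) (hx : x ∈ P ^ n) :
    τ x ∈ P ^ n := by
  have h1 : τ x ∈ (P ^ n).map τ := Ideal.mem_map_of_mem τ hx
  rw [Ideal.map_pow] at h1
  exact Ideal.pow_right_mono (Ideal.map_le_iff_le_comap.2 fun y hy => hτP y hy) n h1

theorem sub_mul_mem_sq (hP : P ≠ ⊥) (τ : B →+* B) (hτP : ∀ x ∈ P, τ x ∈ P)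
    (hτ : ∀ x, τ x - x ∈ P) (π : B) (hπ : π ∈ P) (hπ2 : π ∉ P ^ 2) (s : B)
    (hs : τ π - s * π ∈ P ^ 2) (y : B) (hy : y ∈ P) : τ y - s * y ∈ P ^ 2 := by
  have hsup : Ideal.span {π} ⊔ P ^ 2 = P ^ 1 := by
    refine Ideal.eq_prime_pow_of_succ_lt_of_le hP ?_ ?_
    · refine lt_of_le_of_ne le_sup_right ?_
      intro h
      apply hπ2
      have : π ∈ Ideal.span {π} ⊔ P ^ 2 :=
        Ideal.mem_sup_left (Ideal.mem_span_singleton_self π)
      rw [← h] at this
      exact this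
    · rw [pow_one]
      refine sup_le ?_ (Ideal.pow_le_self (by norm_num))
      rw [Ideal.span_singleton_le_iff_mem]
      exact hπ
  rw [pow_one] at hsup
  rw [← hsup] at hy
  obtain ⟨u, hu, z, hz, rfl⟩ := Submodule.mem_sup.1 hy
  obtain ⟨a, rfl⟩ := Ideal.mem_span_singleton'.1 hu
  have e : τ (a * π + z) - s * (a * π + z)
      = (τ a - a) * τ π + a * (τ π - s * π) + (τ z - s * z) := by
    rw [map_add, map_mul]; ring
  rw [e]
  refine Ideal.add_mem _ (Ideal.add_mem _ ?_ (Ideal.mul_mem_left _ _ hs)) ?_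
  · rw [pow_two]
    exact Ideal.mul_mem_mul (hτ a) (hτP π hπ)
  · exact Ideal.sub_mem _ (map_mem_pow P τ hτP 2 z hz) (Ideal.mul_mem_left _ _ hz)

theorem sub_pow_mul_mem (hP : P ≠ ⊥) (τ : B →+* B) (hτP : ∀ x ∈ P, τ x ∈ P)
    (hτ : ∀ x, τ x - x ∈ P) (π : B) (hπ : π ∈ P) (hπ2 : π ∉ P ^ 2) (s : B)
    (hs : τ π - s * π ∈ P ^ 2) (r : ℕ) (x : B) (hx : x ∈ P ^ r) :
    τ x - s ^ r * x ∈ P ^ (r + 1) := by
  induction r generalizing x with
  | zero => simpa using hτ x
  | succ r ih =>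
    rw [pow_succ] at hx
    refine Submodule.mul_induction_on hx ?_ ?_
    · intro a ha b hb
      have e : τ (a * b) - s ^ (r + 1) * (a * b)
          = (τ a - s ^ r * a) * τ b + s ^ r * (a * (τ b - s * b)) := by
        rw [map_mul]; ring
      rw [e]
      refine Ideal.add_mem _ ?_ (Ideal.mul_mem_left _ _ ?_)
      · rw [pow_succ P (r + 1)]
        exact Ideal.mul_mem_mul (ih a ha) (hτP b hb)
      · have : P ^ (r + 1 + 1) = P ^ r * P ^ 2 := by rw [← pow_add]
        rw [this]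
        exact Ideal.mul_mem_mul ha (sub_mul_mem_sq P hP τ hτP hτ π hπ hπ2 s hs b hb)
    · intro a b ha hb
      have e : τ (a + b) - s ^ (r + 1) * (a + b)
          = (τ a - s ^ (r + 1) * a) + (τ b - s ^ (r + 1) * b) := by
        rw [map_add]; ring
      rw [e]
      exact Ideal.add_mem _ ha hb

/-- If `τ γ = ε γ` and `γ` has exact valuation `r` at `P` then `ε ≡ s^r mod P`. -/
theorem sub_pow_mem_of_apply_eq_mul (hP : P ≠ ⊥) (τ : B →+* B) (hτP : ∀ x ∈ P, τ x ∈ P)
    (hτ : ∀ x, τ x - x ∈ P) (π : B) (hπ : π ∈ P) (hπ2 : π ∉ P ^ 2) (s : B)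
    (hs : τ π - s * π ∈ P ^ 2) (γ ε : B) (hγ : τ γ = ε * γ) (r : ℕ) (hr : γ ∈ P ^ r)
    (hr' : γ ∉ P ^ (r + 1)) : ε - s ^ r ∈ P := by
  have h := sub_pow_mul_mem P hP τ hτP hτ π hπ hπ2 s hs r γ hr
  rw [hγ, ← sub_mul] at h
  rcases Ideal.IsPrime.mul_mem_pow P h with h | h
  · exact h
  · exact absurd h hr'

end Inertia

section Factor

variable {A : Type*} [CommRing A] [IsDedekindDomain A]

open Classical in
theorem exists_eq_prod_mul_pow (I : Ideal A) (hI : I ≠ ⊥) (S : Finset (Ideal A)) (p : ℕ)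
    (h : ∀ q ∈ normalizedFactors I, q ∉ S → p ∣ (normalizedFactors I).count q) :
    ∃ c : Ideal A, I = (∏ q ∈ S, q ^ (normalizedFactors I).count q) * c ^ p := by
  set M := normalizedFactors I with hM
  have h1 : I = ∏ q ∈ M.toFinset, q ^ M.count q := by
    rw [← Finset.prod_multiset_count, hM, Ideal.prod_normalizedFactors_eq_self hI]
  have h2 : ∏ q ∈ S, q ^ M.count q = ∏ q ∈ M.toFinset.filter (· ∈ S), q ^ M.count q := by
    have : M.toFinset.filter (· ∈ S) = S.filter (· ∈ M.toFinset) := by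
      ext q; simp [and_comm]
    rw [this, Finset.prod_filter]
    refine Finset.prod_congr rfl fun q _ => ?_
    split_ifs with hq
    · rfl
    · rw [Multiset.mem_toFinset] at hq
      rw [Multiset.count_eq_zero_of_notMem hq, pow_zero]
  refine ⟨∏ q ∈ M.toFinset.filter (· ∉ S), q ^ (M.count q / p), ?_⟩
  rw [h2, ← Finset.prod_pow]
  conv_lhs => rw [h1, ← Finset.prod_filter_mul_prod_filter_not M.toFinset (· ∈ S)]
  congr 1
  refine Finset.prod_congr rfl fun q hq => ?_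
  rw [Finset.mem_filter, Multiset.mem_toFinset] at hq
  rw [← pow_mul, Nat.div_mul_cancel (h q hq.1 hq.2)]

end Factor

end Fermat.Agent.S14.ThaineAlt
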