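import Fermat.Agent.S14.ThaineAlt.Tower

/-!
# S14 / Thaine : generator of `Gal(L/K)` and `N_{L/K}(1 - ζ_p ζ_ℓ) = 1`
-/

set_option autoImplicit false

namespace Fermat.Agent.S14.ThaineAlt

open Polynomial NumberField

variable (p ℓ : ℕ) [hp : Fact p.Prime] [hl : Fact ℓ.Prime] (K L : Type*) [Field K] [NumberField K]
  [IsCyclotomicExtension {p} ℚ K] [Field L] [NumberField L] [Algebra K L]
  [IsCyclotomicExtension {ℓ} K L]

theorem exists_generator (hne : p ≠ ℓ) (z : L) (hz : IsPrimitiveRoot z ℓ) :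
    ∃ (τ : L ≃ₐ[K] L) (s : ℕ), (∀ σ, σ ∈ Subgroup.zpowers τ) ∧ τ z = z ^ s := by
  have hirr := irreducible_cyclotomic p ℓ K L hne
  let e := IsCyclotomicExtension.autEquivPow L hirr
  obtain ⟨u, hu⟩ := IsCyclic.exists_generator (α := (ZMod ℓ)ˣ)
  refine ⟨e.symm u, ((hz.autToPow K (e.symm u) : (ZMod ℓ)ˣ) : ZMod ℓ).val, ?_, ?_⟩
  · intro σ
    obtain ⟨k, hk⟩ := Subgroup.mem_zpowers_iff.1 (hu (e σ))
    refine Subgroup.mem_zpowers_iff.2 ⟨k, ?_⟩
    rw [← map_zpow, hk, MulEquiv.symm_apply_apply]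
  · exact (hz.autToPow_spec K (e.symm u)).symm

theorem norm_one_sub (hne : p ≠ ℓ) (hℓp : ℓ % p = 1) (ζ : K) (hζ : IsPrimitiveRoot ζ p) (z : L)
    (hz : IsPrimitiveRoot z ℓ) : Algebra.norm K (1 - algebraMap K L ζ * z) = 1 := by
  have hirr := irreducible_cyclotomic p ℓ K L hne
  let E := AlgebraicClosure L
  apply (algebraMap K E).injective
  let _ := IsCyclotomicExtension.finiteDimensional {ℓ} K L
  let _ := IsCyclotomicExtension.isGalois {ℓ} K L
  rw [Algebra.norm_eq_prod_embeddings, map_one]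
  set w : E := algebraMap K E ζ with hw
  have hwp : IsPrimitiveRoot w p := hζ.map_of_injective (algebraMap K E).injective
  have hw0 : w ≠ 0 := hwp.ne_zero hp.out.ne_zero
  have hw1 : w ≠ 1 := hwp.ne_one hp.out.one_lt
  have hzE : IsPrimitiveRoot (algebraMap L E z) ℓ := hz.map_of_injective (algebraMap L E).injective
  have hdvd : p ∣ ℓ - 1 := (Nat.modEq_iff_dvd' hl.out.one_lt.le).1
    (by rw [Nat.ModEq, hℓp, Nat.mod_eq_of_lt hp.out.one_lt])
  have hwl : w ^ (ℓ - 1) = 1 := by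
    obtain ⟨c, hc⟩ := hdvd
    rw [hc, pow_mul, hwp.pow_eq_one, one_pow]
  have Hprod : (∏ σ : L →ₐ[K] E, σ (1 - algebraMap K L ζ * z))
      = ∏ μ ∈ primitiveRoots ℓ E, (1 - w * μ) := by
    rw [← @Finset.prod_attach E E, ← Finset.univ_eq_attach]
    refine Fintype.prod_equiv (hz.embeddingsEquivPrimitiveRoots E hirr) _ _ fun σ => ?_
    simp [hw]
  rw [Hprod]
  have h2 : ∏ μ ∈ primitiveRoots ℓ E, (1 - w * μ) = w ^ (ℓ - 1) * eval w⁻¹ (cyclotomic ℓ E) := by
    rw [cyclotomic_eq_prod_X_sub_primitiveRoots hzE, eval_prod]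
    have hcard : (primitiveRoots ℓ E).card = ℓ - 1 := by
      rw [hzE.card_primitiveRoots, Nat.totient_prime hl.out]
    rw [← hcard, ← Finset.prod_const, ← Finset.prod_mul_distrib]
    refine Finset.prod_congr rfl fun μ _ => ?_
    rw [eval_sub, eval_X, eval_C, mul_sub, mul_inv_cancel₀ hw0]
  rw [h2, hwl, one_mul]
  have h3 := congrArg (eval w⁻¹) (cyclotomic_prime_mul_X_sub_one E ℓ)
  rw [eval_mul, eval_sub, eval_sub, eval_X, eval_one, eval_pow, eval_X] at h3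
  have h4 : (w⁻¹) ^ ℓ = w⁻¹ := by
    have : ℓ = (ℓ - 1) + 1 := (Nat.sub_add_cancel hl.out.one_lt.le).symm
    rw [this, pow_succ, inv_pow, hwl, inv_one, one_mul]
  rw [h4] at h3
  have h5 : w⁻¹ - 1 ≠ 0 := by
    intro h
    apply hw1
    rw [sub_eq_zero, inv_eq_one] at h
    exact h
  exact mul_right_cancel₀ h5 (by rw [h3, one_mul])

end Fermat.Agent.S14.ThaineAlt
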