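import Fermat.Agent.S14.ThaineAlt.Tower

/-!
# S14 / Thaine : ramification in `L = K(ζ_ℓ)` over `K = ℚ(ζ_p)`
-/

set_option autoImplicit false

namespace Fermat.Agent.S14.ThaineAlt

open Polynomial NumberField Ideal

theorem liesOver_span_of_natCast_mem {R : Type*} [CommRing R] (q : ℕ) [hq : Fact q.Prime]
    (Q : Ideal R) [hQ : Q.IsPrime] (h : (q : R) ∈ Q) : Q.LiesOver (span {(q : ℤ)}) := by
  constructor
  have hmax : (span {(q : ℤ)}).IsMaximal := Int.ideal_span_isMaximal_of_prime q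
  refine hmax.eq_of_le (Ideal.IsPrime.under ℤ Q).ne_top ?_
  rw [Ideal.span_singleton_le_iff_mem, Ideal.under_def, Ideal.mem_comap]
  simpa using h

variable (p ℓ : ℕ) [hp : Fact p.Prime] [hl : Fact ℓ.Prime] (K L : Type*) [Field K] [NumberField K]
  [IsCyclotomicExtension {p} ℚ K] [Field L] [NumberField L] [Algebra K L]
  [IsCyclotomicExtension {ℓ} K L]

theorem ramificationIdx_of_natCast_mem (hne : p ≠ ℓ) (Q : Ideal (𝓞 L)) [hQ : Q.IsPrime]
    (hℓ : (ℓ : 𝓞 L) ∈ Q) : Q.ramificationIdx (𝓞 K) = ℓ - 1 := by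
  have hcyc := isCyclotomicExtension_mul p ℓ K L hne
  have hover : Q.LiesOver (span {(ℓ : ℤ)}) := liesOver_span_of_natCast_mem ℓ Q hℓ
  have hq : (Q.under (𝓞 K)).LiesOver (span {(ℓ : ℤ)}) :=
    LiesOver.tower_bot Q (Q.under (𝓞 K)) (span {(ℓ : ℤ)})
  have h1 : Q.ramificationIdx ℤ = ℓ ^ 0 * (ℓ - 1) :=
    IsCyclotomicExtension.Rat.ramificationIdx_eq (p * ℓ) L Q (p := ℓ) (k := 0) (m := p)
      (by ring) (fun h => hne ((Nat.prime_dvd_prime_iff_eq hl.out hp.out).1 h).symm)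
  have h2 : (Q.under (𝓞 K)).ramificationIdx ℤ = 1 :=
    IsCyclotomicExtension.Rat.ramificationIdx_eq_of_not_dvd ℓ K (Q.under (𝓞 K)) (m := p)
      (fun h => hne ((Nat.prime_dvd_prime_iff_eq hl.out hp.out).1 h).symm)
  have h3 := ramificationIdx_tower (R := ℤ) (Q.under (𝓞 K)) Q
  rw [h1, h2] at h3
  simpa using h3.symm

theorem ramificationIdx_of_natCast_notMem (hne : p ≠ ℓ) (Q : Ideal (𝓞 L)) [hQ : Q.IsPrime]
    (hQ0 : Q ≠ ⊥) (hℓ : (ℓ : 𝓞 L) ∉ Q) : Q.ramificationIdx (𝓞 K) = 1 := by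
  have hcyc := isCyclotomicExtension_mul p ℓ K L hne
  have : NeZero Q := ⟨hQ0⟩
  set q := absNorm (under ℤ Q) with hqdef
  have hqp : q.Prime := Nat.absNorm_under_prime Q
  have : Fact q.Prime := ⟨hqp⟩
  have hover : Q.LiesOver (span {(q : ℤ)}) := Int.liesOver_span_absNorm Q
  have hq : (Q.under (𝓞 K)).LiesOver (span {(q : ℤ)}) :=
    LiesOver.tower_bot Q (Q.under (𝓞 K)) (span {(q : ℤ)})
  have hqℓ : q ≠ ℓ := by
    intro h
    apply hℓ
    rw [← h]
    exact Int.absNorm_under_mem Q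
  have h3 := ramificationIdx_tower (R := ℤ) (Q.under (𝓞 K)) Q
  by_cases hqp' : q = p
  · have h1 : Q.ramificationIdx ℤ = q ^ 0 * (q - 1) :=
      IsCyclotomicExtension.Rat.ramificationIdx_eq (p * ℓ) L Q (p := q) (k := 0) (m := ℓ)
        (by rw [hqp']; ring) (fun h => hqℓ ((Nat.prime_dvd_prime_iff_eq hqp hl.out).1 h))
    have hK : IsCyclotomicExtension {q} ℚ K := by rw [hqp']; infer_instance
    have h2 : (Q.under (𝓞 K)).ramificationIdx ℤ = q - 1 :=
      IsCyclotomicExtension.Rat.ramificationIdx_eq_of_prime q K (Q.under (𝓞 K))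
    rw [h1, h2, pow_zero, one_mul] at h3
    have hpos : 0 < q - 1 := Nat.sub_pos_of_lt hqp.one_lt
    exact (Nat.eq_of_mul_eq_mul_left hpos (by rw [mul_one]; exact h3)).symm
  · have h1 : Q.ramificationIdx ℤ = 1 :=
      IsCyclotomicExtension.Rat.ramificationIdx_eq_of_not_dvd q L Q (m := p * ℓ) (by
        intro h
        rcases (Nat.Prime.dvd_mul hqp).1 h with h | h
        · exact hqp' ((Nat.prime_dvd_prime_iff_eq hqp hp.out).1 h)
        · exact hqℓ ((Nat.prime_dvd_prime_iff_eq hqp hl.out).1 h))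
    rw [h1] at h3
    exact Nat.eq_one_of_mul_eq_one_left h3.symm

end Fermat.Agent.S14.ThaineAlt
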