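import Fermat.Agent.S14.ThaineAlt.Hilbert90
import Fermat.Agent.S14.ThaineAlt.Local
import Fermat.Agent.S14.ThaineAlt.Norm
import Fermat.Agent.S14.ThaineAlt.Inertia

/-!
# S14 / Thaine : the Thaine relation
-/

set_option autoImplicit false

namespace Fermat.Agent.S14.ThaineAlt

open Polynomial NumberField Ideal UniqueFactorizationMonoid
open scoped nonZeroDivisors

section Count

variable {A B : Type*} [CommRing A] [IsDedekindDomain A] [CommRing B] [IsDedekindDomain B]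
  [Algebra A B] [Module.IsTorsionFree A B]

open Classical in
theorem count_map_eq (q : Ideal A) (Q : Ideal B) [hq : q.IsPrime] [hQ : Q.IsPrime] [Q.LiesOver q]
    (hq0 : q ≠ ⊥) (hQ0 : Q ≠ ⊥) (I : Ideal A) (hI : I ≠ ⊥) :
    (normalizedFactors (I.map (algebraMap A B))).count Q
      = Q.ramificationIdx A * (normalizedFactors I).count q := by
  have hqi : Irreducible q := (Ideal.prime_of_isPrime hq0 hq).irreducible
  have hQi : Irreducible Q := (Ideal.prime_of_isPrime hQ0 hQ).irreducible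
  have h := IsDedekindDomain.emultiplicity_map_eq_ramificationIdx'_mul (S := B) hI hqi hQi hQ0
  have hmap : I.map (algebraMap A B) ≠ ⊥ := Ideal.map_ne_bot_of_ne_bot hI
  rw [emultiplicity_eq_count_normalizedFactors hQi hmap,
    emultiplicity_eq_count_normalizedFactors hqi hI, normalize_eq, normalize_eq,
    ramificationIdx'_eq_ramificationIdx q Q hq0] at h
  exact_mod_cast h

end Count

section Main

variable (p ℓ : ℕ) [hp : Fact p.Prime] [hl : Fact ℓ.Prime] (K L : Type*) [Field K] [NumberField K]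
  [IsCyclotomicExtension {p} ℚ K] [Field L] [NumberField L] [Algebra K L]
  [IsCyclotomicExtension {ℓ} K L]

/-- Hilbert 90 output, integral form. -/
theorem exists_gamma (hne : p ≠ ℓ) (hℓp : ℓ % p = 1) (ζ : K) (hζ : IsPrimitiveRoot ζ p) (z : L)
    (hz : IsPrimitiveRoot z ℓ) :
    ∃ (τ : L ≃ₐ[K] L) (s : ℕ) (γ : 𝓞 L), (∀ σ, σ ∈ Subgroup.zpowers τ) ∧ τ z = z ^ s ∧ γ ≠ 0 ∧
      τ (γ : L) = (1 - algebraMap K L ζ * z) * (γ : L) := by
  obtain ⟨τ, s, hτ, hτz⟩ := exists_generator p ℓ K L hne z hz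
  have hnorm := norm_one_sub p ℓ K L hne hℓp ζ hζ z hz
  have := IsCyclotomicExtension.finiteDimensional {ℓ} K L
  have := IsCyclotomicExtension.isGalois {ℓ} K L
  obtain ⟨y, hy0, hy⟩ := exists_apply_eq_mul_of_norm_eq_one τ hτ _ hnorm
  obtain ⟨m, hm⟩ := IsIntegral.exists_multiple_integral_of_isLocalization ℤ⁰ y
    (Algebra.IsIntegral.isIntegral (R := ℚ) y)
  refine ⟨τ, s, ⟨m • y, hm⟩, hτ, hτz, ?_, ?_⟩
  · intro h
    have h1 : m • y = 0 := congrArg Subtype.val h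
    rw [Submonoid.smul_def, smul_eq_zero] at h1
    rcases h1 with h1 | h1
    · exact nonZeroDivisors.coe_ne_zero m h1
    · exact hy0 h1
  · change τ (m • y) = _ * (m • y)
    rw [Submonoid.smul_def, map_zsmul, hy, mul_smul_comm]

theorem associated_galRestrict (τ : L ≃ₐ[K] L) (γ ε : 𝓞 L) (hε : IsUnit ε)
    (hγ : galRestrict (𝓞 K) K L (𝓞 L) τ γ = ε * γ) (k : ℕ) :
    Associated (galRestrict (𝓞 K) K L (𝓞 L) (τ ^ k) γ) γ := by
  induction k with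
  | zero => simp
  | succ k ih =>
    rw [pow_succ, map_mul, AlgEquiv.mul_apply, hγ, map_mul]
    exact (associated_isUnit_mul_left_iff (hε.map _)).2 ih

theorem span_norm_eq (hne : p ≠ ℓ) (τ : L ≃ₐ[K] L) (hτ : ∀ σ, σ ∈ Subgroup.zpowers τ)
    (γ ε : 𝓞 L) (hε : IsUnit ε) (hγ : galRestrict (𝓞 K) K L (𝓞 L) τ γ = ε * γ) :
    span {algebraMap (𝓞 K) (𝓞 L) (RingOfIntegers.norm K γ)} = span {γ} ^ (ℓ - 1) := by
  have := IsCyclotomicExtension.finiteDimensional {ℓ} K L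
  have := IsCyclotomicExtension.isGalois {ℓ} K L
  have h1 : algebraMap (𝓞 K) (𝓞 L) (RingOfIntegers.norm K γ)
      = ∏ σ : L ≃ₐ[K] L, galRestrict (𝓞 K) K L (𝓞 L) σ γ := by
    apply RingOfIntegers.ext
    rw [RingOfIntegers.coe_algebraMap_norm, Algebra.norm_eq_prod_automorphisms]
    rw [RingOfIntegers.coe_eq_algebraMap (∏ σ : L ≃ₐ[K] L, galRestrict (𝓞 K) K L (𝓞 L) σ γ),
      map_prod]
    refine Finset.prod_congr rfl fun σ _ => ?_
    exact (algebraMap_galRestrict_apply (𝓞 K) σ γ).symm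
  rw [h1, ← Ideal.prod_span_singleton]
  have h2 : ∀ σ : L ≃ₐ[K] L, span {galRestrict (𝓞 K) K L (𝓞 L) σ γ} = span {γ} := by
    intro σ
    obtain ⟨k, rfl⟩ := (mem_powers_iff_mem_zpowers).2 (hτ σ)
    exact Ideal.span_singleton_eq_span_singleton.2 (associated_galRestrict K L τ γ ε hε hγ k)
  rw [Finset.prod_congr rfl fun σ _ => h2 σ, Finset.prod_const, Finset.card_univ,
    ← Nat.card_eq_fintype_card, IsGalois.card_aut_eq_finrank, finrank_eq p ℓ K L hne]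

open Classical in
include L in
theorem thaine_aux (hne : p ≠ ℓ) (hℓp : ℓ % p = 1) {ζ : K} (hζ : IsPrimitiveRoot ζ p) :
    ∃ (β : 𝓞 K) (s : ℕ), β ≠ 0 ∧
      (∀ 𝔩 : Ideal (𝓞 K), 𝔩.IsPrime → (ℓ : 𝓞 K) ∈ 𝔩 →
        (1 - hζ.toInteger) - (s : 𝓞 K) ^ (normalizedFactors (span {β})).count 𝔩 ∈ 𝔩) ∧
      (∀ 𝔮 : Ideal (𝓞 K), 𝔮.IsPrime → 𝔮 ≠ ⊥ → (ℓ : 𝓞 K) ∉ 𝔮 →
        (ℓ - 1) ∣ (normalizedFactors (span {β})).count 𝔮) := by
  have := IsCyclotomicExtension.finiteDimensional {ℓ} K L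
  have := IsCyclotomicExtension.isGalois {ℓ} K L
  have hz := IsCyclotomicExtension.zeta_spec ℓ K L
  set z := IsCyclotomicExtension.zeta ℓ K L with hzdef
  obtain ⟨τ, s, γ, hτ, hτz, hγ0, hγ⟩ := exists_gamma p ℓ K L hne hℓp ζ hζ z hz
  set τ' := galRestrict (𝓞 K) K L (𝓞 L) τ with hτ'
  set zB : 𝓞 L := hz.toInteger with hzB
  set ζB : 𝓞 L := algebraMap (𝓞 K) (𝓞 L) hζ.toInteger with hζB
  set ε : 𝓞 L := 1 - ζB * zB with hε
  have hzBp : IsPrimitiveRoot zB ℓ := hz.toInteger_isPrimitiveRoot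
  have hεcoe : (ε : L) = 1 - algebraMap K L ζ * z := rfl
  have hτ'coe : ∀ x : 𝓞 L, ((τ' x : 𝓞 L) : L) = τ (x : L) := fun x =>
    algebraMap_galRestrict_apply (𝓞 K) τ x
  have hγ' : τ' γ = ε * γ := by
    apply RingOfIntegers.ext
    rw [hτ'coe, hγ]
    rfl
  have hεu : IsUnit ε := by
    rw [← RingOfIntegers.isUnit_norm_of_isGalois K]
    have : RingOfIntegers.norm K ε = 1 := by
      apply RingOfIntegers.ext
      rw [RingOfIntegers.coe_norm, hεcoe, norm_one_sub p ℓ K L hne hℓp ζ hζ z hz]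
      rfl
    rw [this]
    exact isUnit_one
  have hτ'z : τ' zB = zB ^ s := by
    apply RingOfIntegers.ext
    rw [hτ'coe]
    exact hτz
  have hτ'ζ : τ' ζB = ζB := AlgEquiv.commutes τ' _
  set β := RingOfIntegers.norm K γ with hβ
  have hβ0 : β ≠ 0 := by
    intro h
    have h1 : Algebra.norm K (γ : L) = 0 := by
      rw [← RingOfIntegers.coe_norm, ← hβ, h]
      rfl
    rw [Algebra.norm_eq_zero_iff] at h1
    exact hγ0 (RingOfIntegers.ext h1)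
  have hspan := span_norm_eq p ℓ K L hne τ hτ γ ε hεu hγ'
  have hsβ : span {β} ≠ ⊥ := by rwa [Ne, Ideal.span_singleton_eq_bot]
  have hsγ : span {γ} ≠ ⊥ := by rwa [Ne, Ideal.span_singleton_eq_bot]
  have key : ∀ (𝔮 : Ideal (𝓞 K)) (Q : Ideal (𝓞 L)) [𝔮.IsPrime] [Q.IsPrime] [Q.LiesOver 𝔮],
      𝔮 ≠ ⊥ → Q ≠ ⊥ → (ℓ - 1) * (normalizedFactors (span {γ})).count Q
        = Q.ramificationIdx (𝓞 K) * (normalizedFactors (span {β})).count 𝔮 := by
    intro 𝔮 Q _ _ _ h𝔮 hQ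
    rw [← count_map_eq 𝔮 Q h𝔮 hQ _ hsβ, Ideal.map_span, Set.image_singleton, hspan,
      normalizedFactors_pow, Multiset.count_nsmul]
  refine ⟨β, s, hβ0, ?_, ?_⟩
  · intro 𝔩 h𝔩 hℓ𝔩
    have h𝔩0 : 𝔩 ≠ ⊥ := by
      rintro rfl
      rw [Ideal.mem_bot] at hℓ𝔩
      exact hl.out.ne_zero (by exact_mod_cast hℓ𝔩)
    have h𝔩max : 𝔩.IsMaximal := h𝔩.isMaximal h𝔩0
    obtain ⟨Q, hQmax, hQover⟩ := Ideal.exists_maximal_ideal_liesOver_of_isIntegral 𝔩 (S := 𝓞 L)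
    have hQp : Q.IsPrime := hQmax.isPrime
    have hQ0 : Q ≠ ⊥ := Ideal.ne_bot_of_liesOver_of_ne_bot h𝔩0 Q
    have hℓQ : (ℓ : 𝓞 L) ∈ Q := by
      have := (Ideal.mem_of_liesOver Q 𝔩 (ℓ : 𝓞 K)).1 hℓ𝔩
      simpa using this
    have h1 := key 𝔩 Q h𝔩0 hQ0
    rw [ramificationIdx_of_natCast_mem p ℓ K L hne Q hℓQ] at h1
    have hpos : 0 < ℓ - 1 := Nat.sub_pos_of_lt hl.out.one_lt
    have h2 : (normalizedFactors (span {γ})).count Q = (normalizedFactors (span {β})).count 𝔩 :=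
      Nat.eq_of_mul_eq_mul_left hpos h1
    set r := (normalizedFactors (span {β})).count 𝔩 with hr
    have hQi : Irreducible Q := (Ideal.prime_of_isPrime hQ0 hQp).irreducible
    have h3 : emultiplicity Q (span {γ}) = r := by
      rw [emultiplicity_eq_count_normalizedFactors hQi hsγ, normalize_eq, h2]
    rw [emultiplicity_eq_coe] at h3
    have hγr : γ ∈ Q ^ r := Ideal.dvd_span_singleton.1 h3.1
    have hγr' : γ ∉ Q ^ (r + 1) := fun h => h3.2 (Ideal.dvd_span_singleton.2 h)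
    have hπ : zB - 1 ∈ Q := sub_one_mem ℓ L zB hzBp Q hℓQ
    have hπ2 : zB - 1 ∉ Q ^ 2 := sub_one_notMem_sq p ℓ K L hne zB hzBp Q hℓQ
    have hspanle : span {zB - 1} ≤ Q := (Ideal.span_singleton_le_iff_mem Q).2 hπ
    have hs : τ' (zB - 1) - (s : 𝓞 L) * (zB - 1) ∈ Q ^ 2 := by
      rw [map_sub, map_one, hτ'z]
      exact Ideal.pow_right_mono hspanle 2 (pow_sub_one_sub_mul_mem zB s)
    have hμ : IsPrimitiveRoot (algebraMap K L ζ * z) (p * ℓ) := by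
      have ha : IsPrimitiveRoot (algebraMap K L ζ) p :=
        hζ.map_of_injective (algebraMap K L).injective
      have hcop : Nat.Coprime p ℓ := (Nat.coprime_primes hp.out hl.out).2 hne
      have h := (Commute.all (algebraMap K L ζ) z).orderOf_mul_eq_mul_orderOf_of_coprime
        (by rw [← ha.eq_orderOf, ← hz.eq_orderOf]; exact hcop)
      rw [← ha.eq_orderOf, ← hz.eq_orderOf] at h
      rw [← h]
      exact IsPrimitiveRoot.orderOf _
    have hμB : hμ.toInteger = ζB * zB := rfl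
    have htriv : ∀ x, τ' x - x ∈ Q := by
      intro x
      refine map_sub_self_mem p ℓ K L hne _ hμ (τ' : 𝓞 L →+* 𝓞 L) Q ?_ x
      rw [hμB]
      change τ' (ζB * zB) - ζB * zB ∈ Q
      rw [map_mul, hτ'ζ, hτ'z]
      have e : ζB * zB ^ s - ζB * zB = ζB * ((zB ^ s - 1) - (zB - 1)) := by ring
      rw [e]
      refine Ideal.mul_mem_left _ _ (Ideal.sub_mem _ ?_ hπ)
      exact Ideal.mem_of_dvd _ (sub_one_dvd_pow_sub_one zB s) hπ
    have hstab : ∀ x ∈ Q, τ' x ∈ Q := by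
      intro x hx
      have := Ideal.add_mem _ (htriv x) hx
      simpa using this
    have hfin := sub_pow_mem_of_apply_eq_mul Q hQ0 (τ' : 𝓞 L →+* 𝓞 L) hstab htriv (zB - 1) hπ hπ2
      (s : 𝓞 L) hs γ ε hγ' r hγr hγr'
    rw [Ideal.mem_of_liesOver Q 𝔩]
    have e : algebraMap (𝓞 K) (𝓞 L) (1 - hζ.toInteger - (s : 𝓞 K) ^ r)
        = (ε - (s : 𝓞 L) ^ r) + ζB * (zB - 1) := by
      rw [map_sub, map_sub, map_one, map_pow, map_natCast, hε]
      ring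
    rw [e]
    exact Ideal.add_mem _ hfin (Ideal.mul_mem_left _ _ hπ)
  · intro 𝔮 h𝔮 h𝔮0 hℓ𝔮
    have h𝔮max : 𝔮.IsMaximal := h𝔮.isMaximal h𝔮0
    obtain ⟨Q, hQmax, hQover⟩ := Ideal.exists_maximal_ideal_liesOver_of_isIntegral 𝔮 (S := 𝓞 L)
    have hQp : Q.IsPrime := hQmax.isPrime
    have hQ0 : Q ≠ ⊥ := Ideal.ne_bot_of_liesOver_of_ne_bot h𝔮0 Q
    have hℓQ : (ℓ : 𝓞 L) ∉ Q := by
      intro h
      apply hℓ𝔮
      rw [Ideal.mem_of_liesOver Q 𝔮]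
      simpa using h
    have h1 := key 𝔮 Q h𝔮0 hQ0
    rw [ramificationIdx_of_natCast_notMem p ℓ K L hne Q hQ0 hℓQ, one_mul] at h1
    exact ⟨_, h1.symm⟩

end Main

section Final

variable {p : ℕ} [Fact p.Prime] {K : Type*} [Field K] [NumberField K]
  [IsCyclotomicExtension {p} ℚ K]

/-- **TH1, the Thaine relation.**  For `ℓ ≡ 1 mod p` there are `β ∈ 𝓞 K`, an integer `s` and
exponents `R 𝔩` with `1 - ζ ≡ s ^ R 𝔩 mod 𝔩` for all `𝔩 ∣ ℓ` and
`(β) = ∏_{𝔩 ∣ ℓ} 𝔩 ^ R 𝔩 * 𝔠 ^ p`. -/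
theorem thaine_relation {ζ : K} (hζ : IsPrimitiveRoot ζ p) (ℓ : ℕ) (hℓ : ℓ.Prime)
    (hℓp : ℓ % p = 1) :
    ∃ (β : 𝓞 K) (s : ℕ) (R : Ideal (𝓞 K) → ℕ) (𝔠 : Ideal (𝓞 K)), β ≠ 0 ∧
      (∀ 𝔩 ∈ IsDedekindDomain.primesOverFinset (span {(ℓ : ℤ)}) (𝓞 K),
        (1 - hζ.toInteger) - (s : 𝓞 K) ^ R 𝔩 ∈ 𝔩) ∧
      span {β} = (∏ 𝔩 ∈ IsDedekindDomain.primesOverFinset (span {(ℓ : ℤ)}) (𝓞 K), 𝔩 ^ R 𝔩) *
        𝔠 ^ p := by
  classical
  have hp : p.Prime := Fact.out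
  have : Fact ℓ.Prime := ⟨hℓ⟩
  have hne : p ≠ ℓ := by
    rintro rfl
    rw [Nat.mod_self] at hℓp
    exact zero_ne_one hℓp
  have hdvd : p ∣ ℓ - 1 := (Nat.modEq_iff_dvd' hℓ.one_lt.le).1
    (by rw [Nat.ModEq, hℓp, Nat.mod_eq_of_lt hp.one_lt])
  have hℓ0 : (span {(ℓ : ℤ)} : Ideal ℤ) ≠ ⊥ := by
    rw [Ne, Ideal.span_singleton_eq_bot]
    exact_mod_cast hℓ.ne_zero
  have hmax : (span {(ℓ : ℤ)} : Ideal ℤ).IsMaximal := Int.ideal_span_isMaximal_of_prime ℓ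
  obtain ⟨β, s, hβ0, h1, h2⟩ := thaine_aux p ℓ K (CyclotomicField ℓ K) hne hℓp hζ
  have hsβ : span {β} ≠ ⊥ := by rwa [Ne, Ideal.span_singleton_eq_bot]
  obtain ⟨c, hc⟩ := exists_eq_prod_mul_pow (span {β}) hsβ
    (IsDedekindDomain.primesOverFinset (span {(ℓ : ℤ)}) (𝓞 K)) p (by
      intro q hq hqS
      have hqprime := prime_of_normalized_factor q hq
      have hqp : q.IsPrime := Ideal.isPrime_of_prime hqprime
      refine dvd_trans hdvd (h2 q hqp hqprime.ne_zero ?_)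
      intro hmem
      apply hqS
      rw [IsDedekindDomain.mem_primesOverFinset_iff hℓ0]
      exact ⟨hqp, liesOver_span_of_natCast_mem ℓ q hmem⟩)
  refine ⟨β, s, fun 𝔩 => (normalizedFactors (span {β})).count 𝔩, c, hβ0, ?_, hc⟩
  intro 𝔩 h𝔩
  rw [IsDedekindDomain.mem_primesOverFinset_iff hℓ0] at h𝔩
  obtain ⟨h𝔩p, h𝔩o⟩ := h𝔩
  refine h1 𝔩 h𝔩p ?_
  have := (Ideal.mem_of_liesOver 𝔩 (span {(ℓ : ℤ)}) (ℓ : ℤ)).1 (Ideal.mem_span_singleton_self _)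
  simpa using this

end Final

end Fermat.Agent.S14.ThaineAlt
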