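import Mathlib

/-!
# S14 / Thaine : the tower `ℚ ⊆ K = ℚ(ζ_p) ⊆ L = K(ζ_ℓ)`
-/

set_option autoImplicit false

namespace Fermat.Agent.S14.ThaineAlt

open Polynomial NumberField

variable (p ℓ : ℕ) [hp : Fact p.Prime] [hl : Fact ℓ.Prime] (K L : Type*) [Field K] [NumberField K]
  [IsCyclotomicExtension {p} ℚ K] [Field L] [NumberField L] [Algebra K L]
  [IsCyclotomicExtension {ℓ} K L]

include K in
theorem isCyclotomicExtension_mul (hne : p ≠ ℓ) : IsCyclotomicExtension {p * ℓ} ℚ L := by
  have hcop : Nat.Coprime p ℓ := (Nat.coprime_primes hp.out hl.out).2 hne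
  have h1 : IsCyclotomicExtension ({p} ∪ {ℓ}) ℚ L :=
    IsCyclotomicExtension.trans (S := {p}) (T := {ℓ}) (A := ℚ) (B := K) (C := L)
      (algebraMap K L).injective
  obtain ⟨a, ha⟩ := h1.exists_isPrimitiveRoot (n := p) (by simp) hp.out.ne_zero
  obtain ⟨b, hb⟩ := h1.exists_isPrimitiveRoot (n := ℓ) (by simp) hl.out.ne_zero
  have hab : IsPrimitiveRoot (a * b) (p * ℓ) := by
    have h := (Commute.all a b).orderOf_mul_eq_mul_orderOf_of_coprime
      (by rw [← ha.eq_orderOf, ← hb.eq_orderOf]; exact hcop)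
    rw [← ha.eq_orderOf, ← hb.eq_orderOf] at h
    rw [← h]
    exact IsPrimitiveRoot.orderOf _
  have h2 : IsCyclotomicExtension (({p} ∪ {ℓ}) ∪ {p * ℓ}) ℚ L :=
    IsCyclotomicExtension.union_of_isPrimitiveRoot _ _ _ hab
  have hpl : p * ℓ ≠ 0 := Nat.mul_ne_zero hp.out.ne_zero hl.out.ne_zero
  rw [IsCyclotomicExtension.iff_union_of_dvd (S := {p * ℓ}) (n := p) ℚ L
      ⟨p * ℓ, by simp, hpl, dvd_mul_right _ _⟩,
    IsCyclotomicExtension.iff_union_of_dvd (S := {p * ℓ} ∪ {p}) (n := ℓ) ℚ L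
      ⟨p * ℓ, by simp, hpl, dvd_mul_left _ _⟩]
  convert h2 using 1
  ext x
  simp only [Set.mem_union, Set.mem_singleton_iff]
  tauto

theorem finrank_eq (hne : p ≠ ℓ) : Module.finrank K L = ℓ - 1 := by
  have hcop : Nat.Coprime p ℓ := (Nat.coprime_primes hp.out hl.out).2 hne
  have := isCyclotomicExtension_mul p ℓ K L hne
  have h1 : Module.finrank ℚ L = (p - 1) * (ℓ - 1) := by
    rw [IsCyclotomicExtension.Rat.finrank (p * ℓ) L, Nat.totient_mul hcop,
      Nat.totient_prime hp.out, Nat.totient_prime hl.out]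
  have h2 : Module.finrank ℚ K = p - 1 := by
    rw [IsCyclotomicExtension.Rat.finrank p K, Nat.totient_prime hp.out]
  have h3 := Module.finrank_mul_finrank ℚ K L
  rw [h1, h2] at h3
  have hp1 : 0 < p - 1 := Nat.sub_pos_of_lt hp.out.one_lt
  exact Nat.eq_of_mul_eq_mul_left hp1 h3

include L in
theorem irreducible_cyclotomic (hne : p ≠ ℓ) : Irreducible (cyclotomic ℓ K) := by
  have hz := IsCyclotomicExtension.zeta_spec ℓ K L
  set z := IsCyclotomicExtension.zeta ℓ K L
  have hfd : FiniteDimensional K L := IsCyclotomicExtension.finiteDimensional {ℓ} K L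
  have hint : IsIntegral K z := Algebra.IsIntegral.isIntegral z
  have hdvd : minpoly K z ∣ cyclotomic ℓ K := by
    apply minpoly.dvd
    rw [aeval_def, eval₂_eq_eval_map, map_cyclotomic]
    exact hz.isRoot_cyclotomic hl.out.pos
  have htop : Algebra.adjoin K {z} = ⊤ :=
    IsCyclotomicExtension.adjoin_primitive_root_eq_top hz
  have hdeg : (minpoly K z).natDegree = ℓ - 1 := by
    rw [← finrank_eq p ℓ K L hne]
    have h1 : IntermediateField.adjoin K {z} = ⊤ := by
      rw [← IntermediateField.toSubalgebra_injective.eq_iff,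
        IntermediateField.adjoin_simple_toSubalgebra_of_isAlgebraic hint.isAlgebraic, htop]
      rfl
    rw [← IntermediateField.adjoin.finrank hint, h1]
    exact IntermediateField.finrank_top'
  have heq : cyclotomic ℓ K = minpoly K z := by
    refine Polynomial.eq_of_monic_of_dvd_of_natDegree_le (minpoly.monic hint)
      (cyclotomic.monic ℓ K) hdvd ?_
    rw [hdeg, natDegree_cyclotomic, Nat.totient_prime hl.out]
  rw [heq]
  exact minpoly.irreducible hint

end Fermat.Agent.S14.ThaineAlt
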